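import Fermat.Agent.S18.Main
import Fermat.Agent.S24.Degree
import Fermat.Agent.S24.Zeros
import Fermat.Agent.GR.Defs

/-!
# S18: specialisation to `ℚ̄` and bridge to the GR form of the crux lemma
-/

set_option autoImplicit false

namespace Fermat.Agent.S18

open AlgebraicCurve ModularCurve

set_option synthInstance.maxHeartbeats 400000

theorem hasPrincipalDivisors_bar (N : ℕ) [NeZero N] :
    HasPrincipalDivisors (AlgebraicClosure ℚ) (modularFunctionFieldBar N) :=
  Fermat.Agent.S24.hasPrincipalDivisors (Fermat.Agent.S24.jF N) (Fermat.Agent.S24.transcendental_jF N)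

theorem eq_zero_of_cruxFor (N : ℕ) [NeZero N] (A : ValuationSubring (AlgebraicClosure ℚ))
    (h : ReductionInputsModL A N) {m : ℕ} (hm : m ≠ 0)
    (hcrux : CruxFor A (IsLocalRing.residue A) N m) (z : JZero N)
    (hmz : m • z = 0) (hz : reductionModL A N z = 0) : z = 0 := by
  have := hasPrincipalDivisors_bar N
  obtain ⟨D, rfl⟩ := Pic0.mk_surjective z
  rw [reductionModL_mk h D] at hz
  have h1 : m • (D : Divisor (AlgebraicClosure ℚ) (modularFunctionFieldBar N)) ∈
      Divisor.principal (K := AlgebraicClosure ℚ) (F := modularFunctionFieldBar N) := by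
    have h2 : Pic0.mk (m • D) = 0 := hmz
    have h3 := (QuotientAddGroup.eq_zero_iff (m • D)).1 h2
    rw [AddSubgroup.mem_addSubgroupOf] at h3
    exact h3
  have h2 : Finsupp.mapDomain (placeReductionModL h)
      (D : Divisor (AlgebraicClosure ℚ) (modularFunctionFieldBar N)) ∈
      Divisor.principal (K := IsLocalRing.ResidueField A)
        (F := modularFunctionFieldFullC (IsLocalRing.ResidueField A) N) := by
    have h3 := (QuotientAddGroup.eq_zero_iff _).1 hz
    rw [AddSubgroup.mem_addSubgroupOf] at h3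
    exact h3
  have h3 := principal_of_crux IsLocalRing.residue_surjective
    (isPlaceReductionModL_placeReductionModL h) h.choose_spec.2 hm hcrux _ h1 h2
  exact (QuotientAddGroup.eq_zero_iff D).2 (by rw [AddSubgroup.mem_addSubgroupOf]; exact h3)

theorem bar_eq_FF (N : ℕ) :
    modularFunctionFieldBar N = Fermat.Agent.GR.FF (AlgebraicClosure ℚ) N := by
  rw [Fermat.Agent.S24.modularFunctionFieldBar_eq_adjoin]
  unfold Fermat.Agent.GR.FF modularFunctionFieldFullC
  congr 1
  ext x
  constructor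
  · rintro ⟨y, ⟨d, hne, hd, rfl⟩, rfl⟩
    refine ⟨d, hne, hd, ?_⟩
    rw [coeffEmb, coeffMap_qExpand, ← jqModC_rat, coeffMap_jqModC]
  · rintro ⟨d, hne, hd, rfl⟩
    refine ⟨_, ⟨d, hne, hd, rfl⟩, ?_⟩
    rw [coeffEmb, coeffMap_qExpand, ← jqModC_rat, coeffMap_jqModC]

/-- Transport of a divisibility statement along an equality of intermediate fields. -/
theorem dvd_ord_transport {K M : Type*} [Field K] [Field M] [Algebra K M]
    {E₁ E₂ : IntermediateField K M} (h : E₁ = E₂) (n : ℤ) (u : M) (hu₁ : u ∈ E₁) (hu₂ : u ∈ E₂)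
    (hdvd : ∀ v : Place K E₁, n ∣ v.ord (⟨u, hu₁⟩ : E₁)) :
    ∀ v : Place K E₂, n ∣ v.ord (⟨u, hu₂⟩ : E₂) := by
  subst h
  exact hdvd

/-- The crux lemma in the fraction form of project GR. -/
def GRCrux (A : ValuationSubring (AlgebraicClosure ℚ)) (N m : ℕ) : Prop :=
  ∀ a b : LaurentSeries (AlgebraicClosure ℚ),
    a ∈ Fermat.Agent.GR.FF (AlgebraicClosure ℚ) N → b ∈ Fermat.Agent.GR.FF (AlgebraicClosure ℚ) N →
    Fermat.Agent.GR.IsPrim A a → Fermat.Agent.GR.IsInt A b → Fermat.Agent.GR.Cong A a b →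
    Fermat.Agent.GR.IsKummer (N := N) m (a / b) → Fermat.Agent.GR.KummerEquiv N m b a

theorem cruxFor_of_GRCrux {A : ValuationSubring (AlgebraicClosure ℚ)} {N m : ℕ}
    (h : GRCrux A N m) : CruxFor A (IsLocalRing.residue A) N m := by
  intro a b ha hb hab ha0 hdvd
  have hb0 : coeffMap (IsLocalRing.residue A) b ≠ 0 := hab ▸ ha0
  have hga0 := ha.gen'_ne_zero ha0
  have hgb0 := hb.gen'_ne_zero hb0
  have haF : coeffMap A.subtype a ∈ Fermat.Agent.GR.FF (AlgebraicClosure ℚ) N := by
    rw [← bar_eq_FF]; exact ha.1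
  have hbF : coeffMap A.subtype b ∈ Fermat.Agent.GR.FF (AlgebraicClosure ℚ) N := by
    rw [← bar_eq_FF]; exact hb.1
  have hint : ∀ y : LaurentSeries A, Fermat.Agent.GR.IsInt A (coeffMap A.subtype y) :=
    fun y n => (y.coeff n).2
  have hprim : Fermat.Agent.GR.IsPrim A (coeffMap A.subtype a) := by
    refine ⟨hint a, ?_⟩
    by_contra hall
    push Not at hall
    apply ha0
    ext n
    rw [coeffMap_coeff, HahnSeries.coeff_zero, IsLocalRing.residue_eq_zero_iff]
    obtain ⟨hmem, hmax⟩ := ValuationSubring.mem_nonunits_iff_exists_mem_maximalIdeal.1 (hall n)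
    exact hmax
  have hcong : Fermat.Agent.GR.Cong A (coeffMap A.subtype a) (coeffMap A.subtype b) := by
    intro n
    have h1 := congrArg (fun y => y.coeff n) hab
    simp only [coeffMap_coeff] at h1
    rw [← sub_eq_zero, ← map_sub, IsLocalRing.residue_eq_zero_iff] at h1
    exact ValuationSubring.mem_nonunits_iff_exists_mem_maximalIdeal.2 ⟨(a.coeff n - b.coeff n).2, h1⟩
  have hkum : Fermat.Agent.GR.IsKummer (N := N) m
      (coeffMap A.subtype a / coeffMap A.subtype b) := by
    refine ⟨div_ne_zero (fun h0 => hga0 (Subtype.ext h0)) (fun h0 => hgb0 (Subtype.ext h0)),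
      div_mem haF hbF, ?_⟩
    refine dvd_ord_transport (bar_eq_FF N) m _ (div_mem ha.1 hb.1) _ fun v => ?_
    have h1 : (⟨coeffMap A.subtype a / coeffMap A.subtype b, div_mem ha.1 hb.1⟩ :
        modularFunctionFieldBar N) = ha.gen' * (hb.gen')⁻¹ := by
      apply Subtype.ext
      exact div_eq_mul_inv _ _
    rw [h1, v.ord_mul hga0 (inv_ne_zero hgb0), v.ord_inv, ← sub_eq_add_neg]
    exact hdvd v
  obtain ⟨z, hzF, hz0, hz⟩ := h _ _ haF hbF hprim (hint b) hcong hkum
  have hzB : z ∈ modularFunctionFieldBar N := by rw [bar_eq_FF]; exact hzF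
  exact ⟨⟨z, hzB⟩, fun h0 => hz0 (congrArg Subtype.val h0), Subtype.ext hz⟩

end Fermat.Agent.S18
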