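import Mathlib
import Fermat.Prelude.Def_AlgebraicCurve_DivisorClassGroup

/-!
# S18: the place of a subfield of `k((q))` cut out by the `q`-adic order

For a field `k` and an intermediate field `E` of `k((q)) / k` containing an element of nonzero
order, the elements of nonnegative order form a place of `E / k` of degree one.
-/

set_option autoImplicit false

namespace Fermat.Agent.S18

open AlgebraicCurve

variable {k : Type*} [Field k] (E : IntermediateField k (LaurentSeries k))

theorem pinf_order_mul {a b : E} (ha : a ≠ 0) (hb : b ≠ 0) :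
    ((a * b : E) : LaurentSeries k).order
      = (a : LaurentSeries k).order + (b : LaurentSeries k).order := by
  rw [IntermediateField.coe_mul]
  exact HahnSeries.order_mul (by simpa using ha) (by simpa using hb)

theorem pinf_order_inv (a : E) :
    ((a⁻¹ : E) : LaurentSeries k).order = -(a : LaurentSeries k).order := by
  rcases eq_or_ne a 0 with rfl | ha
  · simp
  · have h := pinf_order_mul E ha (inv_ne_zero ha)
    rw [mul_inv_cancel₀ ha, IntermediateField.coe_one, HahnSeries.order_one] at h
    omega

theorem pinf_order_pow (a : E) (n : ℕ) :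
    ((a ^ n : E) : LaurentSeries k).order = n * (a : LaurentSeries k).order := by
  rw [IntermediateField.coe_pow, HahnSeries.order_pow]
  simp

/-- The valuation subring of `E` of the elements of nonnegative order. -/
def pinfSubring : ValuationSubring E where
  carrier := {f | 0 ≤ (f : LaurentSeries k).order}
  mul_mem' := by
    intro a b ha hb
    simp only [Set.mem_ofPred_eq] at *
    rcases eq_or_ne a 0 with rfl | ha0
    · simp
    rcases eq_or_ne b 0 with rfl | hb0
    · simp
    rw [pinf_order_mul E ha0 hb0]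
    omega
  one_mem' := by simp
  add_mem' := by
    intro a b ha hb
    simp only [Set.mem_ofPred_eq] at *
    rcases eq_or_ne (a + b) 0 with h | h
    · rw [h]; simp
    · have h' : (a : LaurentSeries k) + (b : LaurentSeries k) ≠ 0 := by
        intro h0
        exact h (Subtype.ext (by rw [IntermediateField.coe_add, h0]; rfl))
      have := HahnSeries.min_order_le_order_add h'
      rw [IntermediateField.coe_add]
      exact le_trans (le_min ha hb) this
  zero_mem' := by simp
  neg_mem' := by
    intro a ha
    simp only [Set.mem_ofPred_eq] at *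
    rw [IntermediateField.coe_neg, HahnSeries.order_neg]
    exact ha
  mem_or_inv_mem' := by
    intro a
    simp only [Set.mem_ofPred_eq]
    rw [pinf_order_inv]
    omega

theorem mem_pinfSubring (f : E) : f ∈ pinfSubring E ↔ 0 ≤ (f : LaurentSeries k).order := Iff.rfl

theorem pinf_isUnit_iff (f : pinfSubring E) (hf : f ≠ 0) :
    IsUnit f ↔ ((f : E) : LaurentSeries k).order = 0 := by
  have hf' : (f : E) ≠ 0 := by simpa using hf
  constructor
  · rintro ⟨u, rfl⟩
    have h1 : 0 ≤ (((u : pinfSubring E) : E) : LaurentSeries k).order := (u : pinfSubring E).2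
    have h2 : 0 ≤ ((((u⁻¹ : (pinfSubring E)ˣ) : pinfSubring E) : E) : LaurentSeries k).order :=
      ((u⁻¹ : (pinfSubring E)ˣ) : pinfSubring E).2
    have h3 : ((u : pinfSubring E) : E) * (((u⁻¹ : (pinfSubring E)ˣ) : pinfSubring E) : E) = 1 := by
      exact congrArg Subtype.val (u.mul_inv)
    have h4 : (((u⁻¹ : (pinfSubring E)ˣ) : pinfSubring E) : E) ≠ 0 := by
      intro h; rw [h, mul_zero] at h3; exact zero_ne_one h3
    have h5 := pinf_order_mul E hf' h4
    rw [h3, IntermediateField.coe_one, HahnSeries.order_one] at h5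
    omega
  · intro h
    have hinv : (f : E)⁻¹ ∈ pinfSubring E := by
      rw [mem_pinfSubring, pinf_order_inv, h]; simp
    refine ⟨⟨f, ⟨(f : E)⁻¹, hinv⟩, ?_, ?_⟩, rfl⟩
    · ext; simp [hf']
    · ext; simp [hf']

theorem pinf_order_zpow (a : E) (n : ℤ) :
    ((a ^ n : E) : LaurentSeries k).order = n * (a : LaurentSeries k).order := by
  cases n with
  | ofNat n => simp
  | negSucc n =>
    rw [zpow_negSucc, pinf_order_inv, pinf_order_pow, Int.negSucc_eq]
    push_cast
    ring

/-- There is an element of minimal positive order, and it divides all the orders. -/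
theorem pinf_exists_unif (hx : ∃ x : E, (x : LaurentSeries k).order ≠ 0) :
    ∃ (t : E) (e : ℕ), 0 < e ∧ (t : LaurentSeries k).order = e ∧
      ∀ f : E, (e : ℤ) ∣ (f : LaurentSeries k).order := by
  classical
  have hex : ∃ n : ℕ, 0 < n ∧ ∃ f : E, (f : LaurentSeries k).order = n := by
    obtain ⟨x, hx⟩ := hx
    rcases lt_or_gt_of_ne hx with h | h
    · refine ⟨(-(x : LaurentSeries k).order).toNat, by omega, x⁻¹, ?_⟩
      rw [pinf_order_inv]; omega
    · exact ⟨((x : LaurentSeries k).order).toNat, by omega, x, by omega⟩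
  obtain ⟨he, t, ht⟩ := Nat.find_spec hex
  refine ⟨t, Nat.find hex, he, ht, fun f => ?_⟩
  set e := Nat.find hex with hedef
  have hepos : (0 : ℤ) < e := by exact_mod_cast he
  set o := (f : LaurentSeries k).order with ho
  by_contra hnd
  have hr0 : 0 ≤ o % e := Int.emod_nonneg _ hepos.ne'
  have hr1 : o % e < e := Int.emod_lt_of_pos _ hepos
  have hr2 : o % e ≠ 0 := fun h => hnd (Int.dvd_of_emod_eq_zero h)
  have hf0 : f ≠ 0 := by
    rintro rfl
    apply hnd
    simp [ho]
  have ht0 : t ≠ 0 := by
    rintro rfl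
    simp at ht
    omega
  have hg : ((f * t ^ (-(o / e)) : E) : LaurentSeries k).order = o % e := by
    rw [pinf_order_mul E hf0 (zpow_ne_zero _ ht0), pinf_order_zpow, ht, ← ho]
    have := Int.emod_add_mul_ediv o e
    linarith
  have := Nat.find_min hex (m := (o % e).toNat) (by omega)
  exact this ⟨by omega, _, by rw [hg]; omega⟩

theorem pinf_hasFactorization (hx : ∃ x : E, (x : LaurentSeries k).order ≠ 0) :
    IsDiscreteValuationRing.HasUnitMulPowIrreducibleFactorization (pinfSubring E) := by
  obtain ⟨t, e, he, ht, hdvd⟩ := pinf_exists_unif E hx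
  have hepos : (0 : ℤ) < e := by exact_mod_cast he
  have ht0 : t ≠ 0 := by
    rintro rfl
    simp at ht
    omega
  have htmem : t ∈ pinfSubring E := by rw [mem_pinfSubring, ht]; omega
  have hp0 : (⟨t, htmem⟩ : pinfSubring E) ≠ 0 := fun h => ht0 (congrArg Subtype.val h)
  refine ⟨⟨t, htmem⟩, ⟨?_, ?_⟩, ?_⟩
  · rw [pinf_isUnit_iff E _ hp0]
    show (t : LaurentSeries k).order ≠ 0
    omega
  · intro a b hab
    have ha0 : a ≠ 0 := by rintro rfl; rw [zero_mul] at hab; exact hp0 hab
    have hb0 : b ≠ 0 := by rintro rfl; rw [mul_zero] at hab; exact hp0 hab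
    have ha0' : (a : E) ≠ 0 := by simpa using ha0
    have hb0' : (b : E) ≠ 0 := by simpa using hb0
    rw [pinf_isUnit_iff E _ ha0, pinf_isUnit_iff E _ hb0]
    have h1 : t = (a : E) * (b : E) := congrArg Subtype.val hab
    have h2 := pinf_order_mul E ha0' hb0'
    rw [← h1, ht] at h2
    obtain ⟨x, hx⟩ := hdvd a
    obtain ⟨y, hy⟩ := hdvd b
    have hxa : 0 ≤ ((a : E) : LaurentSeries k).order := a.2
    have hyb : 0 ≤ ((b : E) : LaurentSeries k).order := b.2
    rw [hx] at hxa h2 ⊢
    rw [hy] at hyb h2 ⊢
    have hx0 : 0 ≤ x := by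
      by_contra h
      have : (e : ℤ) * x < 0 := mul_neg_of_pos_of_neg hepos (by omega)
      omega
    have hy0 : 0 ≤ y := by
      by_contra h
      have : (e : ℤ) * y < 0 := mul_neg_of_pos_of_neg hepos (by omega)
      omega
    have h3 : (e : ℤ) * (x + y) = e * 1 := by linarith
    have h4 : x + y = 1 := mul_left_cancel₀ hepos.ne' h3
    rcases (show x = 0 ∨ y = 0 by omega) with h | h
    · left; rw [h, mul_zero]
    · right; rw [h, mul_zero]
  · intro x hx0
    have hx0' : (x : E) ≠ 0 := by simpa using hx0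
    obtain ⟨n, hn⟩ := hdvd x
    have hxo : 0 ≤ ((x : E) : LaurentSeries k).order := x.2
    have hn0 : 0 ≤ n := by
      by_contra h
      have : (e : ℤ) * n < 0 := mul_neg_of_pos_of_neg hepos (by omega)
      omega
    lift n to ℕ using hn0
    refine ⟨n, ?_⟩
    have hu : (((x : E) * (t ^ n)⁻¹ : E) : LaurentSeries k).order = 0 := by
      rw [pinf_order_mul E hx0' (inv_ne_zero (pow_ne_zero _ ht0)), pinf_order_inv, pinf_order_pow,
        ht, hn]
      ring
    have humem : (x : E) * (t ^ n)⁻¹ ∈ pinfSubring E := by rw [mem_pinfSubring, hu]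
    have hu0 : (⟨(x : E) * (t ^ n)⁻¹, humem⟩ : pinfSubring E) ≠ 0 := by
      intro h
      have := congrArg Subtype.val h
      exact mul_ne_zero hx0' (inv_ne_zero (pow_ne_zero _ ht0)) this
    obtain ⟨u, hu'⟩ := (pinf_isUnit_iff E _ hu0).2 hu
    refine ⟨u, ?_⟩
    rw [hu']
    apply Subtype.ext
    show t ^ n * ((x : E) * (t ^ n)⁻¹) = x
    field_simp

/-- The place of `E` cut out by the order. -/
noncomputable def pinfPlace (hx : ∃ x : E, (x : LaurentSeries k).order ≠ 0) : Place k E where
  toValuationSubring := pinfSubring E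
  algebraMap_mem' a := by
    rw [mem_pinfSubring]
    show 0 ≤ (algebraMap k (LaurentSeries k) a).order
    have h1 : algebraMap k (PowerSeries k) a = PowerSeries.C a := by simp
    rw [HahnSeries.algebraMap_apply', h1, HahnSeries.ofPowerSeries_C]
    rcases eq_or_ne a 0 with rfl | ha
    · simp
    · exact (HahnSeries.order_C (Γ := ℤ) (r := a)).ge
  ne_top' := by
    intro h
    obtain ⟨x, hx⟩ := hx
    have h1 : x ∈ pinfSubring E := by rw [h]; trivial
    have h2 : x⁻¹ ∈ pinfSubring E := by rw [h]; trivial
    rw [mem_pinfSubring] at h1 h2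
    rw [pinf_order_inv] at h2
    omega
  isPrincipalIdealRing' :=
    have := IsDiscreteValuationRing.ofHasUnitMulPowIrreducibleFactorization
      (pinf_hasFactorization E hx)
    inferInstance

section General

variable {K F : Type*} [Field K] [Field F] [Algebra K F]

theorem pinf_mem_iff_ord_nonneg (v : Place K F) {f : F} (hf : f ≠ 0) :
    f ∈ v.toValuationSubring ↔ 0 ≤ v.ord f := by
  obtain ⟨π, hπ⟩ := IsDiscreteValuationRing.exists_irreducible v.toValuationSubring
  constructor
  · intro hmem
    obtain ⟨n, u, hu⟩ := IsDiscreteValuationRing.eq_unit_mul_pow_irreducible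
      (x := (⟨f, hmem⟩ : v.toValuationSubring)) (by simpa [Subtype.ext_iff] using hf) hπ
    have h2 : f = ((u : v.toValuationSubring) : F) * (π : F) ^ (n : ℤ) := by
      have := congrArg Subtype.val hu
      simpa using this
    rw [h2, v.ord_unit_smul_zpow u hπ]
    omega
  · intro h
    obtain ⟨u, hu⟩ := v.exists_unit_mul_zpow hf hπ
    rw [hu]
    lift v.ord f to ℕ using h with n
    rw [zpow_natCast]
    exact v.toValuationSubring.mul_mem _ _ u.1.2 (v.toValuationSubring.pow_mem π.2 n)

theorem pinf_ord_pos_iff (v : Place K F) {f : F} (hf : f ≠ 0) :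
    0 < v.ord f ↔ f⁻¹ ∉ v.toValuationSubring := by
  rw [pinf_mem_iff_ord_nonneg v (inv_ne_zero hf), v.ord_inv]
  omega

/-- The ultrametric inequality in the only form we need. -/
theorem pinf_ord_sub_nonneg (v : Place K F) {f g : F} (hf : 0 ≤ v.ord f) (hg : 0 ≤ v.ord g) :
    0 ≤ v.ord (f - g) := by
  rcases eq_or_ne (f - g) 0 with h | h
  · rw [h]; simp
  have hf' : f ∈ v.toValuationSubring := by
    rcases eq_or_ne f 0 with rfl | h0
    · exact v.toValuationSubring.zero_mem
    · exact (pinf_mem_iff_ord_nonneg v h0).2 hf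
  have hg' : g ∈ v.toValuationSubring := by
    rcases eq_or_ne g 0 with rfl | h0
    · exact v.toValuationSubring.zero_mem
    · exact (pinf_mem_iff_ord_nonneg v h0).2 hg
  exact (pinf_mem_iff_ord_nonneg v h).1 (v.toValuationSubring.sub_mem hf' hg')

theorem pinf_ord_algebraMap (v : Place K F) (c : K) : v.ord (algebraMap K F c) = 0 := by
  rcases eq_or_ne c 0 with rfl | hc
  · simp
  have h0 : algebraMap K F c ≠ 0 := by simpa using hc
  have h1 := (pinf_mem_iff_ord_nonneg v h0).1 (v.algebraMap_mem' c)
  have h2 := (pinf_mem_iff_ord_nonneg v (inv_ne_zero h0)).1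
    (by rw [← map_inv₀]; exact v.algebraMap_mem' c⁻¹)
  rw [v.ord_inv] at h2
  omega

end General

variable {E}

theorem pinf_ord_pos (hx : ∃ x : E, (x : LaurentSeries k).order ≠ 0) {f : E}
    (h : 0 < (f : LaurentSeries k).order) : 0 < (pinfPlace E hx).ord f := by
  have hf : f ≠ 0 := by
    rintro rfl
    simp at h
  rw [pinf_ord_pos_iff _ hf]
  show ¬ (f⁻¹ ∈ pinfSubring E)
  rw [mem_pinfSubring, pinf_order_inv]
  omega

theorem pinf_order_eq_zero (hx : ∃ x : E, (x : LaurentSeries k).order ≠ 0) {f : E}
    (h : (pinfPlace E hx).ord f = 0) : (f : LaurentSeries k).order = 0 := by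
  rcases eq_or_ne f 0 with rfl | hf
  · simp
  have h1 : f ∈ pinfSubring E := (pinf_mem_iff_ord_nonneg (pinfPlace E hx) hf).2 h.ge
  have h2 : f⁻¹ ∈ pinfSubring E :=
    (pinf_mem_iff_ord_nonneg (pinfPlace E hx) (inv_ne_zero hf)).2 (by rw [Place.ord_inv, h]; simp)
  rw [mem_pinfSubring] at h1 h2
  rw [pinf_order_inv] at h2
  omega

/-- Subtracting the constant term gives a series of positive order (or zero). -/
theorem pinf_order_sub_const {f : LaurentSeries k} (hf : 0 ≤ f.order)
    (h : f - algebraMap k (LaurentSeries k) (f.coeff 0) ≠ 0) :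
    0 < (f - algebraMap k (LaurentSeries k) (f.coeff 0)).order := by
  have h1 : algebraMap k (PowerSeries k) (f.coeff 0) = PowerSeries.C (f.coeff 0) := by simp
  have h2 : algebraMap k (LaurentSeries k) (f.coeff 0) = HahnSeries.single 0 (f.coeff 0) := by
    rw [HahnSeries.algebraMap_apply', h1, HahnSeries.ofPowerSeries_C, HahnSeries.C_apply]
  rw [h2] at h ⊢
  have h3 := mt HahnSeries.coeff_order_eq_zero.1 h
  by_contra hle
  rw [not_lt] at hle
  apply h3
  rw [HahnSeries.coeff_sub]
  rcases hle.lt_or_eq with hlt | heq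
  · rw [HahnSeries.coeff_single_of_ne hlt.ne,
      HahnSeries.coeff_eq_zero_of_lt_order (lt_of_lt_of_le hlt hf), sub_zero]
  · rw [heq, HahnSeries.coeff_single_same, sub_self]

theorem pinf_deg (hx : ∃ x : E, (x : LaurentSeries k).order ≠ 0) : (pinfPlace E hx).deg = 1 := by
  unfold Place.deg
  rw [finrank_eq_one_iff_of_nonzero' (1 : (pinfPlace E hx).ResidueField) one_ne_zero]
  intro w
  obtain ⟨f, rfl⟩ := IsLocalRing.residue_surjective w
  refine ⟨((f : E) : LaurentSeries k).coeff 0, ?_⟩
  rw [Algebra.smul_def, mul_one]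
  show IsLocalRing.residue _ (algebraMap k (pinfPlace E hx).toValuationSubring _) = _
  rw [eq_comm, ← sub_eq_zero, ← map_sub, IsLocalRing.residue_eq_zero_iff,
    IsLocalRing.mem_maximalIdeal, mem_nonunits_iff]
  set g := f - algebraMap k (pinfPlace E hx).toValuationSubring (((f : E) : LaurentSeries k).coeff 0)
    with hg
  rcases eq_or_ne g 0 with h0 | h0
  · rw [h0]; exact not_isUnit_zero
  · intro hu
    have h1 := (pinf_isUnit_iff E g h0).1 hu
    have h2 : ((g : E) : LaurentSeries k) = ((f : E) : LaurentSeries k)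
        - algebraMap k (LaurentSeries k) (((f : E) : LaurentSeries k).coeff 0) := rfl
    have h3 : ((g : E) : LaurentSeries k) ≠ 0 := by
      intro h
      apply h0
      apply Subtype.ext
      apply Subtype.ext
      exact h
    have h4 := pinf_order_sub_const (f := ((f : E) : LaurentSeries k)) f.2 (by rw [← h2]; exact h3)
    rw [← h2] at h4
    omega

end Fermat.Agent.S18
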