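import Fermat.Agent.S18.Final
import Fermat.Agent.GR.E.BR9

/-!
# S18 modulo the existence of the smooth model (interface `ModelExists` of GR-D → GR-E)
-/

set_option autoImplicit false
set_option synthInstance.maxHeartbeats 400000

namespace Fermat.Agent.S18

open Fermat.Agent.GR Fermat.Agent.GR.E ModularCurve AlgebraicCurve

/-- The crux lemma in the form `GRCrux`, from the model. -/
theorem grCrux_of_modelExists (hD : ModelExists) (N : ℕ) [NeZero N] {ℓ : ℕ} (hℓp : ℓ.Prime)
    (hℓN : ¬ ℓ ∣ N) (A : ValuationSubring (AlgebraicClosure ℚ)) (hA : A.LiesOverPrime ℓ)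
    (m : ℕ) (hm : ¬ ℓ ∣ m) : GRCrux A N m := by
  intro a b ha hb hpa hib hab hK
  have hmN : ¬ ℓ ∣ m * N := by
    intro h
    rcases hℓp.dvd_mul.1 h with h | h
    · exact hm h
    · exact hℓN h
  exact crux_of_modelExists hD hℓp hmN hA a b ha hb hpa hib hab hK

/-- S18e. S18 modulo the existence of the smooth model. -/
theorem result_of_modelExists (hD : ModelExists) (N : ℕ) [NeZero N] {ℓ : ℕ}
    [Fact ℓ.Prime] (hℓN : ¬ ℓ ∣ N) (A : ValuationSubring (AlgebraicClosure ℚ))
    (hA : A.LiesOverPrime ℓ)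
    (h : ModularCurve.ReductionInputsModL A N) (m : ℕ) (hm : ¬ ℓ ∣ m) (z : ModularCurve.JZero N)
    (hmz : m • z = 0) (hz : ModularCurve.reductionModL A N z = 0) :
    z = 0 := by
  have hm0 : m ≠ 0 := by
    rintro rfl
    exact hm (dvd_zero _)
  exact eq_zero_of_cruxFor N A h hm0
    (cruxFor_of_GRCrux (grCrux_of_modelExists hD N Fact.out hℓN A hA m hm)) z hmz hz

end Fermat.Agent.S18
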