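import Fermat.Prelude.Def_ModularCurve_ReductionModL

set_option autoImplicit false
set_option synthInstance.maxHeartbeats 400000

noncomputable section

namespace Fermat.Agent.S18

open ModularCurve AlgebraicCurve IntermediateField

theorem Closure_zero_mem {L : Type*} [Field L] [Algebra ℚ L] (A : ValuationSubring L)
    {k : Type*} [Field k] (π : A →+* k) (N : ℕ) :
    (0 : Divisor L (laurentBaseChange L (modularFunctionFieldFull N))) ∈
      integralPrincipalDivisors A π N := by
  refine ⟨1, by rw [map_one]; exact one_mem _, by rw [map_one]; exact one_mem _,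
    by rw [map_one]; exact one_ne_zero, fun P => ?_⟩
  have h1 : (⟨coeffMap A.subtype 1, by rw [map_one]; exact one_mem _⟩ :
      laurentBaseChange L (modularFunctionFieldFull N)) = 1 := Subtype.ext (map_one _)
  rw [h1, Place.ord_one]
  rfl

theorem Closure_coeffMap_ne_zero {L : Type*} [Field L] (A : ValuationSubring L)
    {k : Type*} [Field k] (π : A →+* k) {y : LaurentSeries A} (h : coeffMap π y ≠ 0) :
    coeffMap A.subtype y ≠ 0 := by
  intro h0
  apply h
  have hy : y = 0 := by
    ext n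
    have h1 := congrArg (fun s : LaurentSeries L => s.coeff n) h0
    have h2 : A.subtype (y.coeff n) = 0 := h1
    have h3 : y.coeff n = 0 := A.subtype_injective (by rw [h2, map_zero])
    simpa using h3
  rw [hy, map_zero]

theorem Closure_add_mem {L : Type*} [Field L] [Algebra ℚ L] (A : ValuationSubring L)
    {k : Type*} [Field k] (π : A →+* k) (N : ℕ)
    {D₁ D₂ : Divisor L (laurentBaseChange L (modularFunctionFieldFull N))}
    (h₁ : D₁ ∈ integralPrincipalDivisors A π N) (h₂ : D₂ ∈ integralPrincipalDivisors A π N) :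
    D₁ + D₂ ∈ integralPrincipalDivisors A π N := by
  obtain ⟨y₁, hy₁, hk₁, hne₁, hD₁⟩ := h₁
  obtain ⟨y₂, hy₂, hk₂, hne₂, hD₂⟩ := h₂
  refine ⟨y₁ * y₂, by rw [map_mul]; exact mul_mem hy₁ hy₂, by rw [map_mul]; exact mul_mem hk₁ hk₂,
    by rw [map_mul]; exact mul_ne_zero hne₁ hne₂, fun P => ?_⟩
  have h1 : (⟨coeffMap A.subtype (y₁ * y₂), by rw [map_mul]; exact mul_mem hy₁ hy₂⟩ :
      laurentBaseChange L (modularFunctionFieldFull N)) =
      ⟨coeffMap A.subtype y₁, hy₁⟩ * ⟨coeffMap A.subtype y₂, hy₂⟩ := Subtype.ext (map_mul _ _ _)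
  rw [h1, Place.ord_mul _ (fun h => Closure_coeffMap_ne_zero A π hne₁ (congrArg Subtype.val h))
    (fun h => Closure_coeffMap_ne_zero A π hne₂ (congrArg Subtype.val h)), ← hD₁, ← hD₂]
  rfl

/-- S18a. The subgroup generated by the integral principal divisors consists of differences. -/
theorem exists_sub_of_mem_closure {L : Type*} [Field L] [Algebra ℚ L] (A : ValuationSubring L)
    {k : Type*} [Field k] (π : A →+* k) (N : ℕ)
    {E : Divisor L (laurentBaseChange L (modularFunctionFieldFull N))}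
    (hE : E ∈ AddSubgroup.closure (integralPrincipalDivisors A π N)) :
    ∃ D₁ ∈ integralPrincipalDivisors A π N, ∃ D₂ ∈ integralPrincipalDivisors A π N,
      E = D₁ - D₂ := by
  induction hE using AddSubgroup.closure_induction with
  | mem E hE => exact ⟨E, hE, 0, Closure_zero_mem A π N, (sub_zero E).symm⟩
  | zero => exact ⟨0, Closure_zero_mem A π N, 0, Closure_zero_mem A π N, (sub_zero 0).symm⟩
  | add E E' _ _ hE hE' =>
    obtain ⟨D₁, h₁, D₂, h₂, rfl⟩ := hE
    obtain ⟨D₁', h₁', D₂', h₂', rfl⟩ := hE'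
    exact ⟨D₁ + D₁', Closure_add_mem A π N h₁ h₁', D₂ + D₂', Closure_add_mem A π N h₂ h₂',
      by abel⟩
  | neg E _ hE =>
    obtain ⟨D₁, h₁, D₂, h₂, rfl⟩ := hE
    exact ⟨D₂, h₂, D₁, h₁, by abel⟩

end Fermat.Agent.S18
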