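import Fermat.Agent.GR.E.Model
import Fermat.Agent.S28.Descent
import Fermat.Agent.S28.Analytic

set_option autoImplicit false
set_option synthInstance.maxHeartbeats 400000

noncomputable section

namespace Fermat.Agent.S18

open Fermat.Agent.GR Fermat.Agent.GR.E ModularCurve AlgebraicCurve IntermediateField

open Polynomial in
theorem FinDim_C_dvd_of_map_eq_zero (ℓ : ℕ) (p : ℤ[X])
    (hp : p.map (Int.castRingHom (ZMod ℓ)) = 0) : C (ℓ : ℤ) ∣ p := by
  rw [C_dvd_iff_dvd_coeff]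
  intro i
  have := congrArg (fun q => q.coeff i) hp
  simp only [coeff_map, coeff_zero, eq_intCast] at this
  exact (ZMod.intCast_zmod_eq_zero_iff_dvd _ _).mp this

open Polynomial in
theorem FinDim_coeffMap_evP {A : Type*} [CommRing A] (f : ℤ →+* A) (w : ℤ[X]) :
    coeffMap f (S28.evP ℤ (jqModC ℤ) w) = S28.evP A (jqModC A) (w.map f) := by
  rw [S28.map_evP f (coeffMap f) (S28.coeffMap_algebraMap' f f fun _ => rfl), coeffMap_jqModC]

open Polynomial in
/-- make the denominator nonzero modulo `ℓ`. -/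
theorem FinDim_exists_relation (ℓ : ℕ) [Fact ℓ.Prime] (n : ℕ) (b : Fin n → LaurentSeries ℤ)
    (hind : ∀ u : Fin n → (ZMod ℓ)[X],
      ∑ i, S28.evP (ZMod ℓ) (jqModC (ZMod ℓ)) (u i) * coeffMap (Int.castRingHom (ZMod ℓ)) (b i) = 0 →
        u = 0)
    (y : LaurentSeries ℤ) (m : ℕ) :
    ∀ (w : ℤ[X]) (u : Fin n → ℤ[X]), ¬ (C (ℓ : ℤ)) ^ m ∣ w →
      S28.evP ℤ (jqModC ℤ) w * y = ∑ i, S28.evP ℤ (jqModC ℤ) (u i) * b i →
      ∃ (w' : ℤ[X]) (u' : Fin n → ℤ[X]), w'.map (Int.castRingHom (ZMod ℓ)) ≠ 0 ∧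
        S28.evP ℤ (jqModC ℤ) w' * y = ∑ i, S28.evP ℤ (jqModC ℤ) (u' i) * b i := by
  induction m with
  | zero =>
    intro w u h
    exact absurd (by rw [pow_zero]; exact one_dvd w) h
  | succ m ih =>
    intro w u hw hrel
    by_cases hw0 : w.map (Int.castRingHom (ZMod ℓ)) = 0
    · have hu0 : (fun i => (u i).map (Int.castRingHom (ZMod ℓ))) = 0 := by
        apply hind
        have h1 := congrArg (coeffMap (Int.castRingHom (ZMod ℓ))) hrel
        rw [map_mul, map_sum, FinDim_coeffMap_evP, hw0, map_zero, zero_mul] at h1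
        rw [h1]
        refine Finset.sum_congr rfl fun i _ => ?_
        rw [map_mul, FinDim_coeffMap_evP]
      obtain ⟨w1, rfl⟩ := FinDim_C_dvd_of_map_eq_zero ℓ w hw0
      have hu1 : ∀ i, ∃ v, u i = C (ℓ : ℤ) * v := fun i =>
        FinDim_C_dvd_of_map_eq_zero ℓ (u i) (congrFun hu0 i)
      choose u1 hu1 using hu1
      apply ih w1 u1
      · intro h
        apply hw
        rw [pow_succ']
        exact mul_dvd_mul_left _ h
      · have hℓ : S28.evP ℤ (jqModC ℤ) (C (ℓ : ℤ)) ≠ 0 := by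
          have h2 : S28.evP ℤ (jqModC ℤ) (C (ℓ : ℤ)) = HahnSeries.single 0 (ℓ : ℤ) := by
            have : S28.evP ℤ (jqModC ℤ) (C (ℓ : ℤ)) = algebraMap ℤ (LaurentSeries ℤ) (ℓ : ℤ) := by
              simp [S28.evP]
            rw [this, S28.algebraMap_laurent_eq_single]
            rfl
          rw [h2]
          exact HahnSeries.single_ne_zero
            (Nat.cast_ne_zero.mpr (Fact.out : ℓ.Prime).ne_zero)
        apply mul_left_cancel₀ hℓ
        rw [← mul_assoc, ← map_mul, hrel, Finset.mul_sum]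
        refine Finset.sum_congr rfl fun i _ => ?_
        rw [hu1 i, map_mul, mul_assoc]
    · exact ⟨w, u, hw0, hrel⟩

open Polynomial in
/-- the generators are integral over `k(j)`. -/
theorem FinDim_isIntegral_gen (N : ℕ) [NeZero N] (ℓ : ℕ) [Fact ℓ.Prime] (hℓN : ¬ ℓ ∣ N)
    (k : Type) [Field k] [CharP k ℓ] (d : ℕ) [NeZero d] (hd : d ∣ N) :
    IsIntegral k⟮(⟨jqModC k, jqModC_mem_full k N⟩ : FF k N)⟯ (qExpand k d (jqModC k)) := by
  obtain ⟨D⟩ := S28.nonempty_analyticData N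
  obtain ⟨n, b, hint, hspan, hind⟩ := S28.hasBasisMod_of_analyticData N ℓ hℓN D
  set jF : FF k N := ⟨jqModC k, jqModC_mem_full k N⟩ with hjF
  let φ : k[X] →+* k⟮jF⟯ := (Polynomial.aeval (AdjoinSimple.gen k jF)).toRingHom
  have hφ : (algebraMap k⟮jF⟯ (LaurentSeries k)).comp φ = S28.evP k (jqModC k) := by
    apply Polynomial.ringHom_ext
    · intro c
      simp only [φ, S28.evP, RingHom.comp_apply, AlgHom.toRingHom_eq_coe, RingHom.coe_coe,
        aeval_C]
      rfl
    · have h4 : φ Polynomial.X = AdjoinSimple.gen k jF := Polynomial.aeval_X _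
      rw [RingHom.comp_apply, h4]
      simp only [S28.evP, AlgHom.toRingHom_eq_coe, RingHom.coe_coe, aeval_X]
      rfl
  have hφ' : ∀ p : k[X], S28.evP k (jqModC k) p = algebraMap k⟮jF⟯ (LaurentSeries k) (φ p) :=
    fun p => by rw [← hφ]; rfl
  -- integrality of the reductions of the `b i`
  let ρ : S28.Rl ℓ →+* k := (ZMod.castHom dvd_rfl k).comp (S28.resid ℓ)
  have hb : ∀ i, IsIntegral k⟮jF⟯ (coeffMap (Int.castRingHom k) (b i)) := by
    intro i
    obtain ⟨P, hP, h0⟩ := hint i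
    have h1 := congrArg (coeffMap ρ) h0
    rw [S28.map_eval₂_evP ρ (coeffMap ρ) (S28.coeffMap_algebraMap' ρ ρ fun _ => rfl),
      coeffMap_jqModC, coeffMap_coeffMap, coeffMap_congr (RingHom.ext_int _ (Int.castRingHom k)),
      map_zero] at h1
    refine ⟨(P.map (Polynomial.mapRingHom ρ)).map φ, (hP.map _).map _, ?_⟩
    rw [Polynomial.eval₂_map, hφ]
    exact h1
  -- the relation over `ℤ`
  obtain ⟨w, u, hw, hrel⟩ := hspan (qExpand ℚ d jq) (jqd_mem_full N hd)
  have hevQ : ∀ p : ℤ[X], coeffMap (Int.castRingHom ℚ) (S28.evP ℤ (jqModC ℤ) p)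
      = S28.evP ℤ jq p := by
    intro p
    rw [S28.map_evP (RingHom.id ℤ) (coeffMap (Int.castRingHom ℚ)) (fun a => by simp),
      coeffMap_jqModC, Polynomial.map_id, jqModC_rat]
  have hrelZ : S28.evP ℤ (jqModC ℤ) w * qExpand ℤ d (jqModC ℤ)
      = ∑ i, S28.evP ℤ (jqModC ℤ) (u i) * b i := by
    apply S28.coeffMap_injective (Int.castRingHom ℚ) Int.cast_injective
    rw [map_mul, map_sum, hevQ, coeffMap_qExpand, coeffMap_jqModC, jqModC_rat, hrel]
    refine Finset.sum_congr rfl fun i _ => ?_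
    rw [map_mul, hevQ]
  obtain ⟨m, hm⟩ : ∃ m, ¬ (C (ℓ : ℤ)) ^ m ∣ w := by
    have hnu : ¬ IsUnit (C (ℓ : ℤ) : ℤ[X]) := by
      rw [Polynomial.isUnit_C, Int.isUnit_iff]
      have := (Fact.out : ℓ.Prime).two_le
      omega
    obtain ⟨m, hm⟩ := FiniteMultiplicity.of_not_isUnit hnu hw
    exact ⟨m + 1, hm⟩
  obtain ⟨w', u', hw', hrel'⟩ := FinDim_exists_relation ℓ n b hind _ m w u hm hrelZ
  have hrelk := congrArg (coeffMap (Int.castRingHom k)) hrel'
  rw [map_mul, map_sum, FinDim_coeffMap_evP, coeffMap_qExpand, coeffMap_jqModC] at hrelk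
  have hwk : w'.map (Int.castRingHom k) ≠ 0 := by
    have h1 : Int.castRingHom k = (ZMod.castHom dvd_rfl k).comp (Int.castRingHom (ZMod ℓ)) :=
      RingHom.ext_int _ _
    rw [h1, ← Polynomial.map_map]
    exact (Polynomial.map_ne_zero_iff (ZMod.castHom dvd_rfl k).injective).mpr hw'
  have hwk' : S28.evP k (jqModC k) (w'.map (Int.castRingHom k)) ≠ 0 := by
    intro h
    exact hwk (S28.evP_injective_of_pole (jqModC k) (S28.order_jqModC_neg k)
      (by rw [h, map_zero]))
  have hy : qExpand k d (jqModC k) = (S28.evP k (jqModC k) (w'.map (Int.castRingHom k)))⁻¹ *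
      ∑ i, coeffMap (Int.castRingHom k) (S28.evP ℤ (jqModC ℤ) (u' i) * b i) := by
    rw [← hrelk, inv_mul_cancel_left₀ hwk']
  rw [hy, hφ', ← map_inv₀]
  refine IsIntegral.mul isIntegral_algebraMap (IsIntegral.sum _ fun i _ => ?_)
  rw [map_mul, FinDim_coeffMap_evP, hφ']
  exact IsIntegral.mul isIntegral_algebraMap (hb i)

theorem FinDim_finite_divisorExpansionsC (K : Type*) [Field K] (N : ℕ) [NeZero N] :
    (divisorExpansionsC K N).Finite := by
  classical
  let f : ℕ → LaurentSeries K := fun d =>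
    if h : d = 0 then 0 else (haveI : NeZero d := ⟨h⟩; qExpand K d (jqModC K))
  refine Set.Finite.subset ((N.divisors : Set ℕ).toFinite.image f) ?_
  rintro x ⟨d, hd, hdN, rfl⟩
  refine ⟨d, ?_, ?_⟩
  · simpa using ⟨hdN, NeZero.ne N⟩
  · simp only [f]
    rw [dif_neg (NeZero.ne d)]

/-- S18f. In characteristic `ℓ ∤ N` the field `k(j(q^d) : d ∣ N)` is finite over `k(j)`. -/
theorem finiteDimensional_FF_charP (N : ℕ) [NeZero N] (ℓ : ℕ) [Fact ℓ.Prime] (hℓN : ¬ ℓ ∣ N)
    (k : Type) [Field k] [CharP k ℓ] :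
    FiniteDimensional k⟮(⟨jqModC k, jqModC_mem_full k N⟩ : FF k N)⟯ (FF k N) := by
  set jF : FF k N := ⟨jqModC k, jqModC_mem_full k N⟩ with hjF
  let S : Set (FF k N) := {g | (g : LaurentSeries k) ∈ divisorExpansionsC k N}
  have hSfin : S.Finite :=
    (FinDim_finite_divisorExpansionsC k N).preimage (Subtype.val_injective.injOn)
  haveI : Finite S := hSfin.to_subtype
  let E : IntermediateField k⟮jF⟯ (FF k N) := adjoin k⟮jF⟯ S
  haveI : FiniteDimensional k⟮jF⟯ E := by
    apply IntermediateField.finiteDimensional_adjoin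
    rintro ⟨x, hxF⟩ ⟨d, hd, hdN, hx⟩
    have h1 := FinDim_isIntegral_gen N ℓ hℓN k d hdN
    rw [← hx] at h1
    exact (isIntegral_algebraMap_iff (A := FF k N) (B := LaurentSeries k)
      (algebraMap (FF k N) (LaurentSeries k)).injective).mp h1
  have htop : E = ⊤ := by
    rw [eq_top_iff]
    rintro x -
    have hle : FF k N ≤ (E.restrictScalars k).map (FF k N).val := by
      change adjoin k (divisorExpansionsC k N) ≤ _
      rw [adjoin_le_iff]
      intro y hy
      have hyF : y ∈ FF k N := subset_adjoin k _ hy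
      exact ⟨⟨y, hyF⟩, subset_adjoin k⟮jF⟯ S hy, rfl⟩
    obtain ⟨x', hx', hxx⟩ := hle x.2
    have : x' = x := Subtype.ext hxx
    rw [← this]
    exact hx'
  rw [htop] at this
  exact Module.Finite.equiv (IntermediateField.topEquiv (F := k⟮jF⟯) (E := FF k N)).toLinearEquiv

end Fermat.Agent.S18
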