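import Mathlib
import Fermat.Prelude.Def_ModularCurve_ReductionModL

/-!
# S18: integral lifts of elements of the reduced function field
-/

set_option autoImplicit false

namespace Fermat.Agent.S18

open AlgebraicCurve ModularCurve

variable {L : Type*} [Field L] [Algebra ℚ L] (A : ValuationSubring L)
variable {k : Type*} [Field k] (π : A →+* k) (N : ℕ)

/-- `y ∈ A((q))` whose generic fibre lies in `F` and whose reduction lies in `F̄`. -/
def Good (y : LaurentSeries A) : Prop :=
  coeffMap A.subtype y ∈ laurentBaseChange L (modularFunctionFieldFull N) ∧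
    coeffMap π y ∈ modularFunctionFieldFullC k N

variable {A π N}

theorem Good.zero : Good A π N 0 := by
  constructor <;> simp

theorem Good.one : Good A π N 1 := by
  constructor <;> simp

theorem Good.mul {x y : LaurentSeries A} (hx : Good A π N x) (hy : Good A π N y) :
    Good A π N (x * y) := by
  constructor
  · rw [map_mul]; exact mul_mem hx.1 hy.1
  · rw [map_mul]; exact mul_mem hx.2 hy.2

theorem Good.add {x y : LaurentSeries A} (hx : Good A π N x) (hy : Good A π N y) :
    Good A π N (x + y) := by
  constructor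
  · rw [map_add]; exact add_mem hx.1 hy.1
  · rw [map_add]; exact add_mem hx.2 hy.2

theorem Good.pow {x : LaurentSeries A} (hx : Good A π N x) (n : ℕ) :
    Good A π N (x ^ n) := by
  constructor
  · rw [map_pow]; exact pow_mem hx.1 n
  · rw [map_pow]; exact pow_mem hx.2 n

theorem Good.const (c : A) : Good A π N (HahnSeries.single 0 c) := by
  constructor
  · rw [coeffMap_single, ← algebraMap_laurentSeries_eq_single]
    exact IntermediateField.algebraMap_mem _ _
  · rw [coeffMap_single, ← algebraMap_laurentSeries_eq_single]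
    exact IntermediateField.algebraMap_mem _ _

theorem Good.gen {d : ℕ} [NeZero d] (hd : d ∣ N) : Good A π N (qExpand A d (jqModC A)) := by
  constructor
  · rw [coeffMap_qExpand, coeffMap_jqModC]
    have h := coeffEmb_mem_laurentBaseChange L (jqd_mem_full N hd)
    rwa [coeffEmb, coeffMap_qExpand, ← jqModC_rat, coeffMap_jqModC] at h
  · rw [coeffMap_qExpand, coeffMap_jqModC]
    exact jqModCd_mem_full k N hd

/-- Every element of the reduced function field is a quotient of reductions of good series. -/
theorem exists_good_frac (hπ : Function.Surjective π) {x : LaurentSeries k}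
    (hx : x ∈ modularFunctionFieldFullC k N) :
    ∃ P Q : LaurentSeries A, Good A π N P ∧ Good A π N Q ∧ coeffMap π Q ≠ 0 ∧
      x * coeffMap π Q = coeffMap π P := by
  unfold modularFunctionFieldFullC at hx
  induction hx using IntermediateField.adjoin_induction with
  | mem y hy =>
    obtain ⟨d, hne, hd, rfl⟩ := hy
    refine ⟨qExpand A d (jqModC A), 1, Good.gen hd, Good.one, by simp, ?_⟩
    rw [map_one, mul_one, coeffMap_qExpand, coeffMap_jqModC]
  | algebraMap c =>
    obtain ⟨c', rfl⟩ := hπ c
    refine ⟨HahnSeries.single 0 c', 1, Good.const c', Good.one, by simp, ?_⟩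
    rw [map_one, mul_one, coeffMap_single, algebraMap_laurentSeries_eq_single]
  | add x y _ _ h1 h2 =>
    obtain ⟨P, Q, hP, hQ, hQ0, h⟩ := h1
    obtain ⟨P', Q', hP', hQ', hQ0', h'⟩ := h2
    refine ⟨P * Q' + P' * Q, Q * Q', (hP.mul hQ').add (hP'.mul hQ), hQ.mul hQ', ?_, ?_⟩
    · rw [map_mul]; exact mul_ne_zero hQ0 hQ0'
    · rw [map_mul, map_add, map_mul, map_mul, ← h, ← h']; ring
  | inv x _ h1 =>
    obtain ⟨P, Q, hP, hQ, hQ0, h⟩ := h1
    by_cases hP0 : coeffMap π P = 0
    · have hx0 : x = 0 := by
        rw [hP0] at h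
        exact (mul_eq_zero.1 h).resolve_right hQ0
      refine ⟨0, 1, Good.zero, Good.one, by simp, ?_⟩
      rw [hx0]; simp
    · have hx0 : x ≠ 0 := by
        rintro rfl
        rw [zero_mul] at h
        exact hP0 h.symm
      refine ⟨Q, P, hQ, hP, hP0, ?_⟩
      rw [← h]
      field_simp
  | mul x y _ _ h1 h2 =>
    obtain ⟨P, Q, hP, hQ, hQ0, h⟩ := h1
    obtain ⟨P', Q', hP', hQ', hQ0', h'⟩ := h2
    refine ⟨P * P', Q * Q', hP.mul hP', hQ.mul hQ', ?_, ?_⟩
    · rw [map_mul]; exact mul_ne_zero hQ0 hQ0'
    · rw [map_mul, map_mul, ← h, ← h']; ring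

theorem coeffMap_subtype_ne_zero {y : LaurentSeries A} (hy : coeffMap π y ≠ 0) :
    coeffMap A.subtype y ≠ 0 := by
  intro h
  apply hy
  have : y = 0 := by
    ext n
    have := congrArg (fun z => z.coeff n) h
    simpa using this
  rw [this, map_zero]

end Fermat.Agent.S18
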