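import Fermat.Agent.S18.Reduce

/-!
# S18: the reduction to the crux lemma (general form)
-/

set_option autoImplicit false

namespace Fermat.Agent.S18

open AlgebraicCurve ModularCurve

variable {L : Type*} [Field L] [Algebra ℚ L] {A : ValuationSubring L}
variable {k : Type*} [Field k] {π : A →+* k} {N : ℕ}
variable {r : Place L (laurentBaseChange L (modularFunctionFieldFull N)) →
  Place k (modularFunctionFieldFullC k N)}

omit [Algebra ℚ L] in
/-- `m`-th roots exist in the residue field. -/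
theorem exists_root_residue [IsAlgClosed L] (hπ : Function.Surjective π) {m : ℕ} (hm : m ≠ 0)
    (c : k) : ∃ α : A, π α ^ m = c := by
  obtain ⟨c', rfl⟩ := hπ c
  obtain ⟨x, hx⟩ := IsAlgClosed.exists_pow_nat_eq (c' : L) (Nat.pos_of_ne_zero hm)
  have hxA : x ∈ A := by
    rw [← A.valuation_le_one_iff]
    have h1 : A.valuation x ^ m ≤ 1 := by
      rw [← map_pow, hx, A.valuation_le_one_iff]
      exact c'.2
    exact (pow_le_one_iff hm).1 h1
  refine ⟨⟨x, hxA⟩, ?_⟩
  rw [← map_pow]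
  congr 1
  exact Subtype.ext hx

theorem ord_pow' {K F : Type*} [Field K] [Field F] [Algebra K F] (v : Place K F) (f : F) (n : ℕ) :
    v.ord (f ^ n) = n * v.ord f := by
  rw [← zpow_natCast, v.ord_zpow]

/-- The crux lemma, in the form used by the assembly. -/
def CruxFor (A : ValuationSubring L) (π : A →+* k) (N m : ℕ) : Prop :=
  ∀ (a b : LaurentSeries A) (ha : Good A π N a) (hb : Good A π N b),
    coeffMap π a = coeffMap π b → coeffMap π a ≠ 0 →
    (∀ P : Place L (laurentBaseChange L (modularFunctionFieldFull N)),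
      (m : ℤ) ∣ P.ord ha.gen' - P.ord hb.gen') →
    ∃ z : laurentBaseChange L (modularFunctionFieldFull N), z ≠ 0 ∧ ha.gen' = hb.gen' * z ^ m

theorem principal_of_crux [IsAlgClosed L]
    [HasPrincipalDivisors L (laurentBaseChange L (modularFunctionFieldFull N))]
    (hπ : Function.Surjective π) (hr : IsPlaceReductionAlong A π N r)
    (hgen : PrincipalGeneratedByIntegral A π N) {m : ℕ} (hm : m ≠ 0)
    (hcrux : CruxFor A π N m)
    (D : Divisor L (laurentBaseChange L (modularFunctionFieldFull N)))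
    (hmD : m • D ∈ Divisor.principal (K := L) (F := laurentBaseChange L (modularFunctionFieldFull N)))
    (hred : Finsupp.mapDomain r D ∈
      Divisor.principal (K := k) (F := modularFunctionFieldFullC k N)) :
    D ∈ Divisor.principal (K := L) (F := laurentBaseChange L (modularFunctionFieldFull N)) := by
  obtain ⟨a, b, ha, hb, ha0, hb0, h1, h2⟩ := exists_frac_of_mem_closure hr (hgen hmD)
  obtain ⟨g, hg0, hg⟩ := hred
  have hmZ : (m : ℤ) ≠ 0 := by exact_mod_cast hm
  -- the comparison constant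
  have hgm0 : g ^ m ≠ 0 := pow_ne_zero _ hg0
  have hra0 := ha.red_ne_zero ha0
  have hrb0 := hb.red_ne_zero hb0
  set c : modularFunctionFieldFullC k N := ha.red * (hb.red)⁻¹ * (g ^ m)⁻¹ with hc
  have hc0 : c ≠ 0 := mul_ne_zero (mul_ne_zero hra0 (inv_ne_zero hrb0)) (inv_ne_zero hgm0)
  have hcord : ∀ Q : Place k (modularFunctionFieldFullC k N), Q.ord c = 0 := by
    intro Q
    have h3 := h2 Q
    rw [Finsupp.mapDomain_smul, Finsupp.smul_apply, hg Q, nsmul_eq_mul] at h3
    rw [hc, Q.ord_mul (mul_ne_zero hra0 (inv_ne_zero hrb0)) (inv_ne_zero hgm0),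
      Q.ord_mul hra0 (inv_ne_zero hrb0), Q.ord_inv, Q.ord_inv, ord_pow']
    linarith
  obtain ⟨c₀, hc₀⟩ := exists_const_of_ord_eq_zero hπ hr c hcord
  obtain ⟨α, hα⟩ := exists_root_residue hπ hm c₀
  set g₁ : modularFunctionFieldFullC k N := algebraMap k _ (π α) * g with hg₁
  have hα0 : π α ≠ 0 := by
    intro h
    rw [h, zero_pow hm] at hα
    rw [← hα, map_zero] at hc₀
    exact hc0 hc₀
  have hg₁0 : g₁ ≠ 0 := mul_ne_zero (by simpa using hα0) hg0
  have hkey : ha.red = hb.red * g₁ ^ m := by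
    rw [hg₁, mul_pow, ← map_pow, hα, ← hc₀, hc]
    field_simp
  obtain ⟨P, S, hP, hS, hS0, hPS⟩ := exists_good_frac (A := A) hπ g₁.2
  have hP0 : coeffMap π P ≠ 0 := by
    rw [← hPS]
    exact mul_ne_zero (fun h => hg₁0 (Subtype.ext h)) hS0
  have hPS' : g₁ * hS.red = hP.red := Subtype.ext hPS
  have hga0 := ha.gen'_ne_zero ha0
  have hgb0 := hb.gen'_ne_zero hb0
  have hgP0 := hP.gen'_ne_zero hP0
  have hgS0 := hS.gen'_ne_zero hS0
  -- apply the crux lemma to `a S^m` and `b P^m`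
  have hred_eq : (ha.mul (hS.pow m)).red = (hb.mul (hP.pow m)).red := by
    rw [Good.red_mul ha (hS.pow m), Good.red_mul hb (hP.pow m), Good.red_pow hS, Good.red_pow hP,
      hkey, ← hPS']
    ring
  obtain ⟨z, hz0, hz⟩ := hcrux (a * S ^ m) (b * P ^ m) (ha.mul (hS.pow m)) (hb.mul (hP.pow m))
    (congrArg Subtype.val hred_eq)
    (by rw [map_mul, map_pow]; exact mul_ne_zero ha0 (pow_ne_zero _ hS0))
    (by
      intro v
      have h3 := h1 v
      rw [Finsupp.smul_apply, nsmul_eq_mul] at h3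
      rw [Good.gen'_mul ha (hS.pow m), Good.gen'_mul hb (hP.pow m), Good.gen'_pow hS,
        Good.gen'_pow hP, v.ord_mul hga0 (pow_ne_zero _ hgS0), v.ord_mul hgb0 (pow_ne_zero _ hgP0),
        ord_pow', ord_pow']
      refine ⟨D v + v.ord hS.gen' - v.ord hP.gen', ?_⟩
      linarith)
  rw [Good.gen'_mul ha (hS.pow m), Good.gen'_mul hb (hP.pow m), Good.gen'_pow hS,
    Good.gen'_pow hP] at hz
  refine ⟨z * hP.gen' * (hS.gen')⁻¹, mul_ne_zero (mul_ne_zero hz0 hgP0) (inv_ne_zero hgS0),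
    fun v => ?_⟩
  have h3 := h1 v
  rw [Finsupp.smul_apply, nsmul_eq_mul] at h3
  have h4 := congrArg v.ord hz
  rw [v.ord_mul hga0 (pow_ne_zero _ hgS0),
    v.ord_mul (mul_ne_zero hgb0 (pow_ne_zero _ hgP0)) (pow_ne_zero _ hz0),
    v.ord_mul hgb0 (pow_ne_zero _ hgP0), ord_pow', ord_pow', ord_pow'] at h4
  rw [v.ord_mul (mul_ne_zero hz0 hgP0) (inv_ne_zero hgS0), v.ord_mul hz0 hgP0, v.ord_inv]
  apply mul_left_cancel₀ hmZ
  linarith

end Fermat.Agent.S18
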