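import Mathlib
import Fermat.Prelude.Def_AlgebraicCurve_DivisorClassGroup

set_option autoImplicit false

noncomputable section

namespace Fermat.Agent.S18

open AlgebraicCurve IntermediateField

/-- helper: from `v a * v y ^ i = v b * v y ^ j`, `i < j`. -/
theorem PlaceExists_aux {L F : Type*} [Field L] [Field F] [Algebra L F]
    {Γ : Type*} [LinearOrderedCommGroupWithZero Γ] (v : Valuation F Γ) (y : F) (hy : y ≠ 0)
    (a b : L) (ha : a ≠ 0) (hb : b ≠ 0) (i j : ℕ) (hij : i < j)
    (h : v (algebraMap L F a * y ^ i) = v (algebraMap L F b * y ^ j)) :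
    ∃ c : L, c ≠ 0 ∧ v y ^ (j - i) = v (algebraMap L F c) := by
  refine ⟨a / b, div_ne_zero ha hb, ?_⟩
  have hvy : v y ≠ 0 := (Valuation.ne_zero_iff v).2 hy
  have hvb : v (algebraMap L F b) ≠ 0 :=
    (Valuation.ne_zero_iff v).2 (by simpa using hb)
  rw [map_mul, map_mul, map_pow, map_pow] at h
  obtain ⟨k, rfl⟩ : ∃ k, j = i + k := ⟨j - i, by omega⟩
  rw [Nat.add_sub_cancel_left, map_div₀, map_div₀, eq_div_iff hvb]
  rw [pow_add] at h
  have h2 : v (algebraMap L F a) * v y ^ i = (v y ^ k * v (algebraMap L F b)) * v y ^ i := by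
    rw [h]; ac_rfl
  exact (mul_right_cancel₀ (pow_ne_zero _ hvy) h2).symm

/-- two terms of the minimal equation have the same valuation. -/
theorem PlaceExists_pow_eq {L F : Type*} [Field L] [Field F] [Algebra L F]
    [FiniteDimensional L F]
    {Γ : Type*} [LinearOrderedCommGroupWithZero Γ] (v : Valuation F Γ) (y : F) (hy : y ≠ 0) :
    ∃ m : ℕ, 0 < m ∧ m ≤ Module.finrank L F ∧ ∃ a : L, a ≠ 0 ∧ v y ^ m = v (algebraMap L F a) := by
  classical
  have hint : IsIntegral L y := Algebra.IsIntegral.isIntegral y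
  set p := minpoly L y with hp
  have hp0 : p ≠ 0 := minpoly.ne_zero hint
  have hdeg : p.natDegree ≤ Module.finrank L F := minpoly.natDegree_le y
  have hev : Polynomial.aeval y p = 0 := minpoly.aeval L y
  set T : ℕ → F := fun i => algebraMap L F (p.coeff i) * y ^ i with hT
  have hsum : ∑ i ∈ p.support, T i = 0 := by
    rw [← hev, Polynomial.aeval_def, Polynomial.eval₂_eq_sum, Polynomial.sum_def]
  have hne : p.support.Nonempty := Polynomial.nonempty_support_iff.2 hp0
  have hT0 : ∀ i ∈ p.support, T i ≠ 0 := by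
    intro i hi
    have : p.coeff i ≠ 0 := Polynomial.mem_support_iff.1 hi
    exact mul_ne_zero (by simpa using this) (pow_ne_zero _ hy)
  obtain ⟨i₀, hi₀, hmax⟩ := Finset.exists_max_image p.support (fun i => v (T i)) hne
  have hex : ∃ i₁ ∈ p.support.erase i₀, v (T i₁) = v (T i₀) := by
    by_contra hcon
    push Not at hcon
    have hlt : ∀ i ∈ p.support.erase i₀, v (T i) < v (T i₀) := by
      intro i hi
      exact lt_of_le_of_ne (hmax i (Finset.mem_of_mem_erase hi)) (hcon i hi)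
    have h1 : v (∑ i ∈ p.support.erase i₀, T i) < v (T i₀) :=
      Valuation.map_sum_lt v ((Valuation.ne_zero_iff v).2 (hT0 i₀ hi₀)) hlt
    have h2 : T i₀ = -∑ i ∈ p.support.erase i₀, T i := by
      rw [← Finset.add_sum_erase _ _ hi₀] at hsum
      exact eq_neg_of_add_eq_zero_left hsum
    rw [h2, Valuation.map_neg] at h1
    exact lt_irrefl _ h1
  obtain ⟨i₁, hi₁, heq⟩ := hex
  have hi₁' : i₁ ∈ p.support := Finset.mem_of_mem_erase hi₁
  have hne' : i₁ ≠ i₀ := Finset.ne_of_mem_erase hi₁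
  have hle : ∀ i ∈ p.support, i ≤ Module.finrank L F := fun i hi =>
    (Polynomial.le_natDegree_of_mem_supp i hi).trans hdeg
  rcases lt_or_gt_of_ne hne' with hlt | hlt
  · obtain ⟨c, hc, hc'⟩ := PlaceExists_aux v y hy _ _ (Polynomial.mem_support_iff.1 hi₁')
      (Polynomial.mem_support_iff.1 hi₀) i₁ i₀ hlt heq
    exact ⟨i₀ - i₁, by omega, by have := hle i₀ hi₀; omega, c, hc, hc'⟩
  · obtain ⟨c, hc, hc'⟩ := PlaceExists_aux v y hy _ _ (Polynomial.mem_support_iff.1 hi₀)
      (Polynomial.mem_support_iff.1 hi₁') i₀ i₁ hlt heq.symm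
    exact ⟨i₁ - i₀, by omega, by have := hle i₁ hi₁'; omega, c, hc, hc'⟩

/-- a fixed power of every valuation comes from the base field. -/
theorem PlaceExists_pow_factorial {L F : Type*} [Field L] [Field F] [Algebra L F]
    [FiniteDimensional L F]
    {Γ : Type*} [LinearOrderedCommGroupWithZero Γ] (v : Valuation F Γ) (y : F) (hy : y ≠ 0) :
    ∃ a : L, a ≠ 0 ∧ v y ^ (Module.finrank L F).factorial = v (algebraMap L F a) := by
  obtain ⟨m, hm, hmd, a, ha, h⟩ := PlaceExists_pow_eq (L := L) v y hy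
  obtain ⟨k, hk⟩ := Nat.dvd_factorial hm hmd
  exact ⟨a ^ k, pow_ne_zero _ ha, by rw [hk, pow_mul, h, map_pow, map_pow]⟩

/-- polynomials in `t` have valuation `≤ 1`. -/
theorem PlaceExists_aeval_le {K F : Type*} [Field K] [Field F] [Algebra K F]
    {Γ : Type*} [LinearOrderedCommGroupWithZero Γ] (v : Valuation F Γ)
    (hK : ∀ a : K, v (algebraMap K F a) ≤ 1) (t : F) (ht : v t ≤ 1) (p : Polynomial K) :
    v (Polynomial.aeval t p) ≤ 1 := by
  rw [Polynomial.aeval_def, Polynomial.eval₂_eq_sum, Polynomial.sum_def]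
  refine Valuation.map_sum_le v ?_
  intro i _
  rw [map_mul, map_pow]
  exact mul_le_one' (hK _) (pow_le_one' ht _)

/-- valuations of polynomials in `t` are powers of one element. -/
theorem PlaceExists_poly {K F : Type*} [Field K] [Field F] [Algebra K F]
    {Γ : Type*} [LinearOrderedCommGroupWithZero Γ] (v : Valuation F Γ)
    (hK : ∀ a : K, v (algebraMap K F a) ≤ 1) (t : F) (ht : v t ≤ 1) :
    ∃ c : Γ, c < 1 ∧ ∀ p : Polynomial K, Polynomial.aeval t p ≠ 0 →
      ∃ k : ℕ, v (Polynomial.aeval t p) = c ^ k := by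
  classical
  let 𝔭 : Ideal (Polynomial K) :=
    { carrier := {p | v (Polynomial.aeval t p) < 1}
      add_mem' := by
        intro a b ha hb
        simp only [Set.mem_ofPred_eq, map_add] at ha hb ⊢
        exact lt_of_le_of_lt (v.map_add _ _) (max_lt ha hb)
      zero_mem' := by simp
      smul_mem' := by
        intro r a ha
        simp only [Set.mem_ofPred_eq, smul_eq_mul, map_mul] at ha ⊢
        exact lt_of_le_of_lt (mul_le_of_le_one_left' (PlaceExists_aeval_le v hK t ht r)) ha }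
  have hmem : ∀ p, p ∈ 𝔭 ↔ v (Polynomial.aeval t p) < 1 := fun _ => Iff.rfl
  obtain ⟨f, hf⟩ := (IsPrincipalIdealRing.principal 𝔭).principal
  have hf' : 𝔭 = Ideal.span {f} := hf
  have hfmem : f ∈ 𝔭 := by rw [hf']; exact Ideal.mem_span_singleton_self f
  refine ⟨v (Polynomial.aeval t f), (hmem f).1 hfmem, ?_⟩
  intro p
  induction hn : p.natDegree using Nat.strong_induction_on generalizing p with
  | _ n ih =>
    intro hp
    by_cases hpm : p ∈ 𝔭
    · rw [hf', Ideal.mem_span_singleton] at hpm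
      obtain ⟨g, rfl⟩ := hpm
      rw [map_mul] at hp
      have hf0 : Polynomial.aeval t f ≠ 0 := left_ne_zero_of_mul hp
      have hg0 : Polynomial.aeval t g ≠ 0 := right_ne_zero_of_mul hp
      have hf00 : f ≠ 0 := by rintro rfl; simp at hf0
      have hg00 : g ≠ 0 := by rintro rfl; simp at hg0
      have hfdeg : 0 < f.natDegree := by
        rw [Nat.pos_iff_ne_zero]
        intro h0
        obtain ⟨a, rfl⟩ : ∃ a, f = Polynomial.C a := ⟨_, Polynomial.eq_C_of_natDegree_eq_zero h0⟩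
        have ha : a ≠ 0 := by rintro rfl; simp at hf00
        have h1 := (hmem _).1 hfmem
        rw [Polynomial.aeval_C] at h1
        have h2 := hK a⁻¹
        rw [map_inv₀, map_inv₀] at h2
        have h3 : v (algebraMap K F a) ≠ 0 := (Valuation.ne_zero_iff v).2 (by simpa using ha)
        have h4 : 1 ≤ v (algebraMap K F a) := (inv_le_one₀ (zero_lt_iff.2 h3)).1 h2
        exact absurd h1 (not_lt.2 h4)
      have hdeg : g.natDegree < n := by
        rw [← hn, Polynomial.natDegree_mul hf00 hg00]; omega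
      obtain ⟨k, hk⟩ := ih _ hdeg g rfl hg0
      exact ⟨k + 1, by rw [map_mul, map_mul, hk, pow_succ']⟩
    · refine ⟨0, ?_⟩
      rw [pow_zero]
      exact le_antisymm (PlaceExists_aeval_le v hK t ht p) (not_lt.1 (fun h => hpm ((hmem p).2 h)))

/-- valuations `≤ 1` of nonzero elements of `K(t)` are powers of one element `≤ 1`. -/
theorem PlaceExists_ratfunc {K F : Type*} [Field K] [Field F] [Algebra K F]
    {Γ : Type*} [LinearOrderedCommGroupWithZero Γ] (v : Valuation F Γ)
    (hK : ∀ a : K, v (algebraMap K F a) ≤ 1) (t : F) (ht : v t ≤ 1) :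
    ∃ c : Γ, c ≤ 1 ∧ ∀ b ∈ K⟮t⟯, b ≠ 0 → v b ≤ 1 → ∃ k : ℕ, v b = c ^ k := by
  obtain ⟨c, hc1, hc⟩ := PlaceExists_poly v hK t ht
  by_cases hc0 : c = 0
  · refine ⟨1, le_rfl, ?_⟩
    have h1 : ∀ p : Polynomial K, Polynomial.aeval t p ≠ 0 → v (Polynomial.aeval t p) = 1 := by
      intro p hp
      obtain ⟨k, hk⟩ := hc p hp
      rcases Nat.eq_zero_or_pos k with rfl | hk0
      · simpa using hk
      · rw [hc0, zero_pow hk0.ne'] at hk
        exact absurd hk ((Valuation.ne_zero_iff v).2 hp)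
    intro b hb hb0 _
    obtain ⟨r, s, rfl⟩ := (IntermediateField.mem_adjoin_simple_iff K b).1 hb
    have hr : Polynomial.aeval t r ≠ 0 := fun h => hb0 (by rw [h, zero_div])
    have hs : Polynomial.aeval t s ≠ 0 := fun h => hb0 (by rw [h, div_zero])
    exact ⟨0, by rw [map_div₀, h1 r hr, h1 s hs]; simp⟩
  · refine ⟨c, hc1.le, ?_⟩
    intro b hb hb0 hb1
    obtain ⟨r, s, rfl⟩ := (IntermediateField.mem_adjoin_simple_iff K b).1 hb
    have hr : Polynomial.aeval t r ≠ 0 := fun h => hb0 (by rw [h, zero_div])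
    have hs : Polynomial.aeval t s ≠ 0 := fun h => hb0 (by rw [h, div_zero])
    obtain ⟨k₁, hk₁⟩ := hc r hr
    obtain ⟨k₂, hk₂⟩ := hc s hs
    rw [map_div₀, hk₁, hk₂] at hb1 ⊢
    rcases le_or_gt k₂ k₁ with h | h
    · refine ⟨k₁ - k₂, ?_⟩
      rw [div_eq_iff (pow_ne_zero _ hc0), ← pow_add, Nat.sub_add_cancel h]
    · exfalso
      obtain ⟨j, rfl⟩ : ∃ j, k₂ = k₁ + (j + 1) := ⟨k₂ - k₁ - 1, by omega⟩
      rw [div_le_one₀ (zero_lt_iff.2 (pow_ne_zero _ hc0)), pow_add] at hb1
      have h2 : c ^ (j + 1) < 1 := pow_lt_one₀ zero_le hc1 (Nat.succ_ne_zero j)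
      have h3 : c ^ k₁ * c ^ (j + 1) < c ^ k₁ * 1 :=
        mul_lt_mul_of_pos_left h2 (zero_lt_iff.2 (pow_ne_zero _ hc0))
      rw [mul_one] at h3
      exact absurd hb1 (not_le.2 h3)

/-- S18b1. A valuation subring of a function field of one variable which contains the constants
and is not the whole field is a discrete valuation ring. (Any characteristic.) -/
theorem isPrincipalIdealRing_of_valuationSubring {K F : Type*} [Field K] [Field F] [Algebra K F]
    (x : F) [FiniteDimensional K⟮x⟯ F] (V : ValuationSubring F)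
    (hK : ∀ a : K, algebraMap K F a ∈ V) (hV : V ≠ ⊤) : IsPrincipalIdealRing V := by
  classical
  set v := V.valuation with hv
  have hK' : ∀ a : K, v (algebraMap K F a) ≤ 1 := fun a => (V.valuation_le_one_iff _).2 (hK a)
  -- the parameter `t`
  obtain ⟨t, ht, htx⟩ : ∃ t : F, v t ≤ 1 ∧ ∀ b ∈ K⟮x⟯, b ∈ K⟮t⟯ := by
    rcases V.mem_or_inv_mem x with h | h
    · exact ⟨x, (V.valuation_le_one_iff _).2 h, fun _ hb => hb⟩
    · refine ⟨x⁻¹, (V.valuation_le_one_iff _).2 h, ?_⟩
      have hle : K⟮x⟯ ≤ K⟮x⁻¹⟯ := by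
        rw [IntermediateField.adjoin_simple_le_iff]
        have := inv_mem (IntermediateField.mem_adjoin_simple_self K x⁻¹)
        simpa using this
      exact fun b hb => hle hb
  obtain ⟨c, hc1, hc⟩ := PlaceExists_ratfunc v hK' t ht
  set D := (Module.finrank K⟮x⟯ F).factorial with hD
  have hD0 : D ≠ 0 := Nat.factorial_ne_zero _
  have key : ∀ y : F, y ≠ 0 → v y ≤ 1 → ∃ k : ℕ, v y ^ D = c ^ k := by
    intro y hy hy1
    obtain ⟨a, ha, h⟩ := PlaceExists_pow_factorial (L := K⟮x⟯) v y hy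
    rw [h]
    refine hc _ (htx _ a.2) (by simpa using ha) ?_
    have : v (algebraMap K⟮x⟯ F a) = v y ^ D := h.symm
    rw [this]
    exact pow_le_one' hy1 _
  refine ⟨fun I => ?_⟩
  by_cases hI : I = ⊥
  · rw [hI]; exact bot_isPrincipal
  obtain ⟨y₁, hy₁I, hy₁0⟩ : ∃ y ∈ I, y ≠ 0 := by
    by_contra hcon
    push Not at hcon
    exact hI ((Submodule.eq_bot_iff I).2 hcon)
  have hex : ∃ k : ℕ, ∃ y ∈ I, y ≠ 0 ∧ v (y : F) ^ D = c ^ k := by
    obtain ⟨k, hk⟩ := key (y₁ : F) (by simpa using hy₁0) ((V.valuation_le_one_iff _).2 y₁.2)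
    exact ⟨k, y₁, hy₁I, hy₁0, hk⟩
  obtain ⟨y₀, hy₀I, hy₀0, hy₀⟩ := Nat.find_spec hex
  have hy₀F : (y₀ : F) ≠ 0 := by simpa using hy₀0
  refine ⟨y₀, le_antisymm ?_ ?_⟩
  · intro z hz
    by_cases hz0 : z = 0
    · rw [hz0]; exact zero_mem _
    have hzF : (z : F) ≠ 0 := by simpa using hz0
    obtain ⟨k, hk⟩ := key (z : F) hzF ((V.valuation_le_one_iff _).2 z.2)
    have hkmin : Nat.find hex ≤ k := Nat.find_min' hex ⟨z, hz, hz0, hk⟩
    have h1 : v (z : F) ^ D ≤ v (y₀ : F) ^ D := by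
      rw [hk, hy₀]
      exact pow_le_pow_right_of_le_one' hc1 hkmin
    have h2 : v (z : F) ≤ v (y₀ : F) := by
      by_contra hlt
      rw [not_le] at hlt
      exact absurd h1 (not_le.2 (pow_lt_pow_left₀ hlt zero_le hD0))
    have h3 : (z : F) / (y₀ : F) ∈ V := by
      rw [← V.valuation_le_one_iff, map_div₀]
      exact div_le_one_of_le₀ h2 zero_le
    refine Submodule.mem_span_singleton.2 ⟨⟨_, h3⟩, ?_⟩
    apply Subtype.ext
    show (z : F) / (y₀ : F) * (y₀ : F) = z
    exact div_mul_cancel₀ _ hy₀F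
  · rw [Submodule.span_le, Set.singleton_subset_iff]; exact hy₀I

/-- an element whose inverse is not integral has positive order. -/
theorem PlaceExists_ord_pos {K F : Type*} [Field K] [Field F] [Algebra K F] (w : Place K F)
    {c : F} (hc0 : c ≠ 0) (hcinv : c⁻¹ ∉ w.toValuationSubring) : 0 < w.ord c := by
  obtain ⟨π, hπ⟩ := IsDiscreteValuationRing.exists_irreducible w.toValuationSubring
  obtain ⟨u, hu⟩ := w.exists_unit_mul_zpow hc0 hπ
  by_contra hle
  rw [not_lt] at hle
  apply hcinv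
  obtain ⟨n, hn⟩ : ∃ n : ℕ, w.ord c = -(n : ℤ) := ⟨(-w.ord c).toNat, by omega⟩
  rw [hn] at hu
  have h5 : ((u : w.toValuationSubring) : F) * (((u⁻¹ : (w.toValuationSubring)ˣ) :
      w.toValuationSubring) : F) = 1 := by
    have h := congrArg (Subtype.val : w.toValuationSubring → F) (u.mul_inv)
    exact h
  have h6 : c⁻¹ = (((u⁻¹ : (w.toValuationSubring)ˣ) : w.toValuationSubring) : F) * (π : F) ^ n := by
    rw [hu, mul_inv, zpow_neg, inv_inv, zpow_natCast, inv_eq_of_mul_eq_one_right h5]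
  rw [h6]
  exact w.toValuationSubring.mul_mem _ _ (u⁻¹ : (w.toValuationSubring)ˣ).1.2
    (w.toValuationSubring.pow_mem π.2 n)

/-- S18b2. A nonconstant function has a zero. (Any characteristic.) -/
theorem exists_place_ord_pos {K F : Type*} [Field K] [Field F] [Algebra K F]
    (x : F) [FiniteDimensional K⟮x⟯ F] (c : F) (hc : Transcendental K c) :
    ∃ v : Place K F, 0 < v.ord c := by
  classical
  have hc0 : c ≠ 0 := by
    rintro rfl
    exact hc (isAlgebraic_zero)
  -- the ring `K[c]` and the proper ideal `(c)`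
  let A : Subring F := (Algebra.adjoin K {c}).toSubring
  have hcA : c ∈ A := Algebra.subset_adjoin (Set.mem_singleton c)
  let I : Ideal A := Ideal.span {(⟨c, hcA⟩ : A)}
  have hI : I ≠ ⊤ := by
    intro htop
    have h1 : (1 : A) ∈ I := by rw [htop]; trivial
    obtain ⟨r, hr⟩ := Ideal.mem_span_singleton'.1 h1
    have hrA : (r : F) ∈ Algebra.adjoin K {c} := r.2
    rw [Algebra.adjoin_singleton_eq_range_aeval] at hrA
    obtain ⟨p, hp⟩ := hrA
    have h2 : (r : F) * c = 1 := congrArg Subtype.val hr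
    have h3 : Polynomial.aeval c (p * Polynomial.X - 1) = 0 := by
      have hp' : Polynomial.aeval c p = (r : F) := hp
      rw [map_sub, map_mul, Polynomial.aeval_X, map_one, hp', h2, sub_self]
    have h4 : p * Polynomial.X - 1 = 0 := by
      by_contra hne
      exact hc ⟨_, hne, h3⟩
    have h5 := congrArg (fun q : Polynomial K => q.coeff 0) h4
    simp at h5
  obtain ⟨V, hAV, hIV⟩ := Ideal.image_subset_nonunits_valuationSubring I hI
  have hK : ∀ a : K, algebraMap K F a ∈ V := fun a =>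
    hAV ((Algebra.adjoin K {c}).algebraMap_mem a)
  have hcV : c ∈ V.nonunits :=
    hIV ⟨⟨c, hcA⟩, Ideal.mem_span_singleton_self _, rfl⟩
  have hcinv : c⁻¹ ∉ V := by
    intro h
    have h1 : V.valuation c < 1 := (ValuationSubring.mem_nonunits_iff V).1 hcV
    have h2 : V.valuation c⁻¹ ≤ 1 := (V.valuation_le_one_iff _).2 h
    rw [map_inv₀] at h2
    have h3 : V.valuation c ≠ 0 := (Valuation.ne_zero_iff _).2 hc0
    have h4 : 1 ≤ V.valuation c := (inv_le_one₀ (zero_lt_iff.2 h3)).1 h2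
    exact absurd h1 (not_lt.2 h4)
  have hV : V ≠ ⊤ := by
    rintro rfl
    exact hcinv (ValuationSubring.mem_top _)
  exact ⟨⟨V, hK, hV, isPrincipalIdealRing_of_valuationSubring x V hK hV⟩,
    PlaceExists_ord_pos _ hc0 hcinv⟩

end Fermat.Agent.S18
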