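import Fermat.Agent.S18.Lift
import Fermat.Agent.S18.PlaceInf

/-!
# S18: consequences of the reduction inputs
-/

set_option autoImplicit false

namespace Fermat.Agent.S18

open AlgebraicCurve ModularCurve

variable {L : Type*} [Field L] [Algebra ℚ L] {A : ValuationSubring L}
variable {k : Type*} [Field k] {π : A →+* k} {N : ℕ}

/-- generic fibre of a good series -/
noncomputable def Good.gen' {y : LaurentSeries A} (h : Good A π N y) :
    laurentBaseChange L (modularFunctionFieldFull N) := ⟨coeffMap A.subtype y, h.1⟩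

/-- reduction of a good series -/
noncomputable def Good.red {y : LaurentSeries A} (h : Good A π N y) :
    modularFunctionFieldFullC k N := ⟨coeffMap π y, h.2⟩

theorem Good.gen'_mul {x y : LaurentSeries A} (hx : Good A π N x) (hy : Good A π N y) :
    (hx.mul hy).gen' = hx.gen' * hy.gen' := Subtype.ext (map_mul _ _ _)

theorem Good.red_mul {x y : LaurentSeries A} (hx : Good A π N x) (hy : Good A π N y) :
    (hx.mul hy).red = hx.red * hy.red := Subtype.ext (map_mul _ _ _)

theorem Good.gen'_pow {x : LaurentSeries A} (hx : Good A π N x) (n : ℕ) :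
    (hx.pow n).gen' = hx.gen' ^ n := Subtype.ext (map_pow _ _ _)

theorem Good.red_pow {x : LaurentSeries A} (hx : Good A π N x) (n : ℕ) :
    (hx.pow n).red = hx.red ^ n := Subtype.ext (map_pow _ _ _)

theorem Good.gen'_one : (Good.one : Good A π N 1).gen' = 1 := Subtype.ext (map_one _)

theorem Good.red_one : (Good.one : Good A π N 1).red = 1 := Subtype.ext (map_one _)

theorem Good.red_ne_zero {x : LaurentSeries A} (hx : Good A π N x) (h : coeffMap π x ≠ 0) :
    hx.red ≠ 0 := fun h0 => h (congrArg Subtype.val h0)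

theorem Good.gen'_ne_zero {x : LaurentSeries A} (hx : Good A π N x) (h : coeffMap π x ≠ 0) :
    hx.gen' ≠ 0 := fun h0 => coeffMap_subtype_ne_zero h (congrArg Subtype.val h0)

variable {r : Place L (laurentBaseChange L (modularFunctionFieldFull N)) →
  Place k (modularFunctionFieldFullC k N)}

/-- Step 1: a divisor in the group generated by the integral principal divisors is the divisor of
a fraction of good series, compatibly with reduction. -/
theorem exists_frac_of_mem_closure (hr : IsPlaceReductionAlong A π N r)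
    {E : Divisor L (laurentBaseChange L (modularFunctionFieldFull N))}
    (hE : E ∈ AddSubgroup.closure (integralPrincipalDivisors A π N)) :
    ∃ (a b : LaurentSeries A) (ha : Good A π N a) (hb : Good A π N b),
      coeffMap π a ≠ 0 ∧ coeffMap π b ≠ 0 ∧
      (∀ P, E P = P.ord ha.gen' - P.ord hb.gen') ∧
      (∀ Q, Finsupp.mapDomain r E Q = Q.ord ha.red - Q.ord hb.red) := by
  induction hE using AddSubgroup.closure_induction with
  | mem E hE =>
    obtain ⟨y, hy, hyk, hne, hDy⟩ := hE
    refine ⟨y, 1, ⟨hy, hyk⟩, Good.one, hne, by simp, fun P => ?_, fun Q => ?_⟩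
    · rw [Good.gen'_one, Place.ord_one, sub_zero]; exact hDy P
    · rw [Good.red_one, Place.ord_one, sub_zero]; exact hr.2 y hy hyk hne E hDy Q
  | zero =>
    refine ⟨1, 1, Good.one, Good.one, by simp, by simp, fun P => ?_, fun Q => ?_⟩
    · simp
    · simp
  | add E E' _ _ hE hE' =>
    obtain ⟨a, b, ha, hb, ha0, hb0, h1, h2⟩ := hE
    obtain ⟨a', b', ha', hb', ha0', hb0', h1', h2'⟩ := hE'
    refine ⟨a * a', b * b', ha.mul ha', hb.mul hb', ?_, ?_, fun P => ?_, fun Q => ?_⟩
    · rw [map_mul]; exact mul_ne_zero ha0 ha0'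
    · rw [map_mul]; exact mul_ne_zero hb0 hb0'
    · rw [Finsupp.add_apply, h1, h1', Good.gen'_mul ha ha', Good.gen'_mul hb hb',
        P.ord_mul (ha.gen'_ne_zero ha0) (ha'.gen'_ne_zero ha0'),
        P.ord_mul (hb.gen'_ne_zero hb0) (hb'.gen'_ne_zero hb0')]
      ring
    · rw [Finsupp.mapDomain_add, Finsupp.add_apply, h2, h2', Good.red_mul ha ha', Good.red_mul hb hb',
        Q.ord_mul (ha.red_ne_zero ha0) (ha'.red_ne_zero ha0'),
        Q.ord_mul (hb.red_ne_zero hb0) (hb'.red_ne_zero hb0')]
      ring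
  | neg E _ hE =>
    obtain ⟨a, b, ha, hb, ha0, hb0, h1, h2⟩ := hE
    refine ⟨b, a, hb, ha, hb0, ha0, fun P => ?_, fun Q => ?_⟩
    · rw [Finsupp.neg_apply, h1]; ring
    · rw [← Finsupp.mapDomain.addMonoidHom_apply, map_neg, Finsupp.mapDomain.addMonoidHom_apply,
        Finsupp.neg_apply, h2]
      ring

/-- The divisor of the reduction of a good series exists and has degree zero. -/
theorem exists_divisor_red [HasPrincipalDivisors L (laurentBaseChange L (modularFunctionFieldFull N))]
    (hr : IsPlaceReductionAlong A π N r) {y : LaurentSeries A} (hy : Good A π N y)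
    (h0 : coeffMap π y ≠ 0) :
    ∃ R : Divisor k (modularFunctionFieldFullC k N), (∀ Q, R Q = Q.ord hy.red) ∧
      Divisor.degree R = 0 := by
  obtain ⟨D, hD, hdeg⟩ := HasPrincipalDivisors.exists_divisor (K := L) hy.gen' (hy.gen'_ne_zero h0)
  refine ⟨Finsupp.mapDomain r D, fun Q => hr.2 y hy.1 hy.2 h0 D hD Q, ?_⟩
  rw [degree_mapDomain_of_deg_eq hr.1, hdeg]

theorem degree_pos_of_nonneg {K F : Type*} [Field K] [Field F] [Algebra K F] (R : Divisor K F)
    (h : ∀ Q, 0 ≤ R Q) (Q₀ : Place K F) (h0 : 0 < R Q₀) (hd : 0 < Q₀.deg) :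
    0 < Divisor.degree R := by
  have h1 : Divisor.degree R = R.sum fun v n => n * (v.deg : ℤ) := by
    simp [Divisor.degree, Finsupp.liftAddHom_apply]
  rw [h1, Finsupp.sum]
  refine Finset.sum_pos' (fun Q _ => mul_nonneg (h Q) (by positivity)) ⟨Q₀, ?_, ?_⟩
  · rw [Finsupp.mem_support_iff]; exact h0.ne'
  · exact mul_pos h0 (by exact_mod_cast hd)

theorem exists_order_ne_zero (k : Type*) [Field k] (N : ℕ) :
    ∃ x : modularFunctionFieldFullC k N, (x : LaurentSeries k).order ≠ 0 := by
  refine ⟨⟨jqModC k, jqModC_mem_full k N⟩, ?_⟩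
  show (jqModC k).order ≠ 0
  have h1 : (jqModC k).coeff (-1) ≠ 0 := by rw [coeff_jqModC_neg_one]; exact one_ne_zero
  have h2 := HahnSeries.order_le_of_coeff_ne_zero h1
  omega

/-- Step 3: an element of the reduced function field without zeros and poles is constant. -/
theorem exists_const_of_ord_eq_zero
    [HasPrincipalDivisors L (laurentBaseChange L (modularFunctionFieldFull N))]
    (hπ : Function.Surjective π) (hr : IsPlaceReductionAlong A π N r)
    (c : modularFunctionFieldFullC k N) (hc : ∀ Q : Place k (modularFunctionFieldFullC k N),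
      Q.ord c = 0) :
    ∃ c₀ : k, c = algebraMap k (modularFunctionFieldFullC k N) c₀ := by
  have hx := exists_order_ne_zero k N
  have ho : (c : LaurentSeries k).order = 0 := pinf_order_eq_zero hx (hc _)
  refine ⟨(c : LaurentSeries k).coeff 0, ?_⟩
  by_contra hne
  set g : modularFunctionFieldFullC k N :=
    c - algebraMap k (modularFunctionFieldFullC k N) ((c : LaurentSeries k).coeff 0) with hg
  have hg0 : g ≠ 0 := sub_ne_zero.2 hne
  have hgval : (g : LaurentSeries k) = (c : LaurentSeries k)
      - algebraMap k (LaurentSeries k) ((c : LaurentSeries k).coeff 0) := rfl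
  have hgo : 0 < (g : LaurentSeries k).order := by
    rw [hgval]
    refine pinf_order_sub_const ho.ge ?_
    rw [← hgval]
    exact fun h => hg0 (Subtype.ext h)
  have hginf := pinf_ord_pos hx hgo
  have hgnn : ∀ Q : Place k (modularFunctionFieldFullC k N), 0 ≤ Q.ord g := fun Q =>
    pinf_ord_sub_nonneg Q (hc Q).ge (pinf_ord_algebraMap Q _).ge
  obtain ⟨P, S, hP, hS, hS0, hPS⟩ := exists_good_frac (A := A) hπ g.2
  have hP0 : coeffMap π P ≠ 0 := by
    rw [← hPS]
    exact mul_ne_zero (fun h => hg0 (Subtype.ext h)) hS0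
  obtain ⟨R₁, hR₁, hd₁⟩ := exists_divisor_red hr hP hP0
  obtain ⟨R₂, hR₂, hd₂⟩ := exists_divisor_red hr hS hS0
  have hmul : g * hS.red = hP.red := Subtype.ext hPS
  have hRg : ∀ Q, (R₁ - R₂) Q = Q.ord g := by
    intro Q
    rw [Finsupp.sub_apply, hR₁, hR₂, ← hmul, Q.ord_mul hg0 (hS.red_ne_zero hS0)]
    ring
  have hpos := degree_pos_of_nonneg (R₁ - R₂) (fun Q => by rw [hRg]; exact hgnn Q)
    (pinfPlace _ hx) (by rw [hRg]; exact hginf) (by rw [pinf_deg]; exact one_pos)
  rw [map_sub, hd₁, hd₂, sub_zero] at hpos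
  exact lt_irrefl _ hpos

end Fermat.Agent.S18
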